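import Fermat.Agent.ORD.NM.Interface
import Fermat.Agent.BR.F.UFormal
import Fermat.Agent.BR.F.UAnalytic
import Fermat.Agent.BR.F.UGlue
import Fermat.Agent.ES.Mid.KumOfDiv
import Fermat.Agent.ES.Mid.DivOfKum
import Fermat.Agent.ES.Mid.BCount
import Fermat.Agent.ES.Mid.BCuspOrd
import Fermat.Agent.ES.Mid.BFinOrd
import Fermat.Agent.ES.Mid.BUnifCusp
import Fermat.Agent.ES.Mid.BUnifFin
import Fermat.Agent.ES.Mid.TauPE
import Fermat.Agent.ES.Mid.Root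
import Fermat.Agent.ES.Mid.ValMult

/-!
# ORD / NM : (NM-UMEM), (NM-UFORM) — `N_p` preserves `F_N` and `U_m(N)`; formal properties of
`formalU`.  Hypothesis-free glue of `BR/F/U*.lean` and `ES/Mid`.
-/

set_option autoImplicit false

noncomputable section

namespace Fermat.Agent.ORD.NM

open ModularCurve
open Fermat.Agent.S24 (Qbar FF)
open Fermat.Agent.ES.Mid (GQ gal IsDiv formalN twProd compress tw)
open Fermat.Agent.ORD.Dep

/-- constants as `HahnSeries.C`. -/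
theorem UMem_cst_eq (c : Qbar) : cst c = HahnSeries.C c := by
  rw [cst, algebraMap_laurentSeries_eq_single]
  rfl

/-- **(NM-UFORM)**. -/
theorem stmt_UForm : Stmt_UForm := by
  intro p _ ζ hζ
  refine ⟨(BR.F.U1.uf_mul Qbar p ζ hζ).1, (BR.F.U1.uf_mul Qbar p ζ hζ).2, ?_, fun x => rfl, ?_⟩
  · intro c
    rw [UMem_cst_eq, UMem_cst_eq]
    exact BR.F.U3.formalU_C ζ c
  · intro σ x
    show coeffMap (σ : Qbar →+* Qbar) (BR.F.formalU p ζ x) = BR.F.formalU p ζ _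
    rw [BR.F.U1.uf_map Qbar Qbar (σ : Qbar →+* Qbar) p ζ]
    refine BR.F.U1.uf_indep Qbar p _ _ ?_ hζ _
    exact hζ.map_of_injective (f := Units.map ((σ : Qbar →+* Qbar) : Qbar →* Qbar))
      (Units.map_injective (σ : Qbar →+* Qbar).injective)

/-- **(NM-UMEM)**. -/
theorem stmt_UMem : Stmt_UMem := by
  intro N _ p _ hp hpN ζ hζ u
  have hmem := BR.F.U3.formalU_mem BR.F.U2.ua_char BR.F.U2.ua_mdiff BR.F.U2.ua_rep
    BR.F.U2.ua_growth BR.F.U1.uf_mul N ⟨p, hp⟩ hpN ζ hζ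
  refine ⟨BR.F.U3.mkU hmem u, rfl, fun hu => BR.F.U3.mkU_ne_zero hmem BR.F.U1.uf_mul hζ hu, ?_⟩
  intro m hm hdiv
  have : NeZero m := ⟨hm⟩
  obtain ⟨χ, hPE, hK⟩ := ES.Mid.A.kumOfDiv ES.Mid.VAL.valMult ES.Mid.ROOT.rootUHP N m u hdiv
  exact ES.Mid.B.divOfKum_of ES.Mid.B.count ES.Mid.B.unifFin ES.Mid.B.unifCusp ES.Mid.B.finOrd
    ES.Mid.B.cuspOrd N m _ _
    (BR.F.U3.kum_mkU BR.F.U2.ua_char BR.F.U2.ua_mdiff BR.F.U2.ua_rep BR.F.U2.ua_growth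
      BR.F.U1.uf_mul N ⟨p, hp⟩ hpN ζ hζ hmem m u χ hK)
    (ES.Mid.TP.tauPE N ⟨p, hp⟩ (ZMod m) χ hPE)

end Fermat.Agent.ORD.NM

end
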