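import Fermat.Agent.ORD.NM.Interface
import Fermat.Agent.ORD.Dep.GOApi
import Fermat.Agent.ORD.Dep.C
import Fermat.Agent.ORD.Dep.UnifW

/-! # ORD / NM : `G1` (= Lemma D'') from `Deepen` and `D2FF`. -/

set_option autoImplicit false
set_option linter.unusedSectionVars false

noncomputable section

namespace Fermat.Agent.ORD.NM

open ModularCurve
open Fermat.Agent.S24 (Qbar FF)
open Fermat.Agent.ES.Mid (GQ gal IsDiv)
open Fermat.Agent.ORD.Dep

section abstractPart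

variable {F : Type*} [Field F] (n : F → F) (h1 : n 1 = 1) (hm : ∀ x y, n (x * y) = n x * n y)

include h1 hm

theorem G1_ne_zero {x : F} (hx : x ≠ 0) : n x ≠ 0 := by
  intro h
  have := hm x x⁻¹
  rw [mul_inv_cancel₀ hx, h1, h, zero_mul] at this
  exact one_ne_zero this

theorem G1_pow (x : F) (k : ℕ) : n (x ^ k) = n x ^ k := by
  induction k with
  | zero => rw [pow_zero, pow_zero, h1]
  | succ k ih => rw [pow_succ, pow_succ, hm, ih]

theorem G1_iter_one (k : ℕ) : n^[k] 1 = 1 := by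
  induction k with
  | zero => rfl
  | succ k ih => rw [Function.iterate_succ_apply', ih, h1]

theorem G1_iter_mul (k : ℕ) (x y : F) : n^[k] (x * y) = n^[k] x * n^[k] y := by
  induction k with
  | zero => rfl
  | succ k ih => rw [Function.iterate_succ_apply', ih, hm, ← Function.iterate_succ_apply' n,
      ← Function.iterate_succ_apply' n]

theorem G1_iter_ne_zero (k : ℕ) {x : F} (hx : x ≠ 0) : n^[k] x ≠ 0 :=
  G1_ne_zero (n^[k]) (G1_iter_one n h1 hm k) (G1_iter_mul n h1 hm k) hx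

theorem G1_iter_pow (k : ℕ) (x : F) (j : ℕ) : n^[k] (x ^ j) = n^[k] x ^ j :=
  G1_pow (n^[k]) (G1_iter_one n h1 hm k) (G1_iter_mul n h1 hm k) x j

/-- if `n (n a) = a * h ^ p` then `n^[2k] a = a * h_k ^ p`. -/
theorem G1_iter_two {p : ℕ} {a h : F} (ha : n (n a) = a * h ^ p) (k : ℕ) :
    ∃ hk : F, n^[2 * k] a = a * hk ^ p := by
  induction k with
  | zero => exact ⟨1, by simp⟩
  | succ k ih =>
    obtain ⟨hk, e⟩ := ih
    refine ⟨h * n (n hk), ?_⟩
    have : 2 * (k + 1) = (2 * k + 1) + 1 := by ring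
    rw [this, Function.iterate_succ_apply', Function.iterate_succ_apply', e, hm, hm, ha,
      G1_pow n h1 hm, G1_pow n h1 hm, mul_pow, mul_assoc]

end abstractPart

theorem G1_coe_const (N : ℕ) (a : Qbar) :
    ((algebraMap Qbar (FF N) a : FF N) : LaurentSeries Qbar) = cst a :=
  IntermediateField.coe_algebraMap_apply _ a

/-- the iterates of `n` on series. -/
theorem G1_coe_iter {N p : ℕ} [NeZero p] {ζ : Qbarˣ} {n : FF N → FF N}
    (hn : ∀ u, (n u : LaurentSeries Qbar) = formalU p ζ (u : LaurentSeries Qbar)) (k : ℕ)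
    (x : FF N) : ((n^[k] x : FF N) : LaurentSeries Qbar)
      = (formalU p ζ)^[k] (x : LaurentSeries Qbar) := by
  induction k with
  | zero => rfl
  | succ k ih => rw [Function.iterate_succ_apply', Function.iterate_succ_apply', hn, ih]

/-- a class of `W_∞` which is fixed by `n ∘ n` is arbitrarily deep. -/
theorem G1_deep (hUF : Stmt_UForm) {p : ℕ} [NeZero p] (hp : p.Prime)
    {A : ValuationSubring Qbar} (hA : A.LiesOverPrime p) {N : ℕ} [NeZero N]
    {ζ : Qbarˣ} (hζ : IsPrimitiveRoot ζ p) {n : FF N → FF N}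
    (hn : ∀ u, (n u : LaurentSeries Qbar) = formalU p ζ (u : LaurentSeries Qbar))
    {a : FF N} (ha0 : a ≠ 0) (haW : InW A N p a) (hnn : ∃ h : FF N, n (n a) = a * h ^ p)
    {d : Qbar} (hd : d ≠ 0) :
    ∃ (c : Qbar) (g : FF N), c ≠ 0 ∧ g ≠ 0 ∧
      Cg A d (cst c * (a : LaurentSeries Qbar) * (g : LaurentSeries Qbar) ^ p) 1 := by
  obtain ⟨hU1, hUm, hUc, -, -⟩ := hUF p ζ hζ
  have h1 : n 1 = 1 := Subtype.ext (by rw [hn]; exact hU1)
  have hm : ∀ x y, n (x * y) = n x * n y := fun x y => Subtype.ext (by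
    rw [hn, IntermediateField.coe_mul, IntermediateField.coe_mul, hn, hn, hUm])
  have hc : ∀ c : Qbar, n (algebraMap Qbar (FF N) c) = algebraMap Qbar (FF N) (c ^ p) :=
    fun c => Subtype.ext (by rw [hn, G1_coe_const, G1_coe_const, hUc])
  have hck : ∀ (k : ℕ) (c : Qbar), c ≠ 0 → ∃ c' : Qbar, c' ≠ 0 ∧
      n^[k] (algebraMap Qbar (FF N) c) = algebraMap Qbar (FF N) c' := by
    intro k
    induction k with
    | zero => exact fun c hc0 => ⟨c, hc0, rfl⟩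
    | succ k ih =>
      intro c hc0
      obtain ⟨c', hc', e⟩ := ih c hc0
      exact ⟨c' ^ p, pow_ne_zero _ hc', by rw [Function.iterate_succ_apply', e, hc]⟩
  obtain ⟨c₁, g₁, hc₁, hg₁, hrd⟩ := haW
  obtain ⟨h, hh⟩ := hnn
  -- the representative
  obtain ⟨X, hX⟩ : ∃ X : FF N, X = algebraMap Qbar (FF N) c₁ * a * g₁ ^ p := ⟨_, rfl⟩
  have hXc : (X : LaurentSeries Qbar)
      = cst c₁ * (a : LaurentSeries Qbar) * (g₁ : LaurentSeries Qbar) ^ p := by
    rw [hX, IntermediateField.coe_mul, IntermediateField.coe_mul, IntermediateField.coe_pow,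
      G1_coe_const]
  rw [← hXc] at hrd
  obtain ⟨w, hw⟩ : ∃ w : Qbar, w ^ (p - 1) = -(p : Qbar) :=
    IsAlgClosed.exists_pow_nat_eq _ (Nat.sub_pos_of_lt hp.one_lt)
  have hSw : Sm A w := (stmt_UnifW p hp A hA w hw).1
  obtain ⟨c₀, hc₀, hCg⟩ : ∃ c₀ : Qbar, Sm A c₀ ∧ Cg A c₀ (X : LaurentSeries Qbar) 1 := by
    by_cases hX1 : X = 1
    · refine ⟨w, hSw, ?_⟩
      rw [hX1]
      exact Cg.refl _ _
    · have hGO : GO A (X : LaurentSeries Qbar) := GO_of_rd_ne_zero (by rw [hrd]; exact one_ne_zero)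
      obtain ⟨c₀, hc₀, hCg⟩ := Cg_of_rd_eq (A := A) N hX1 hGO GO_one (by
        rw [hrd]; exact rd_one.symm)
      exact ⟨c₀, hc₀, hCg⟩
  obtain ⟨k₀, hk₀⟩ := stmt_Deepen p hp A hA ζ hζ c₀ hc₀ _ hCg d hd
  have hdeep := hk₀ (2 * k₀) (by omega)
  rw [← G1_coe_iter hn] at hdeep
  obtain ⟨hk, hhk⟩ := G1_iter_two n h1 hm hh k₀
  obtain ⟨c', hc', hcc'⟩ := hck (2 * k₀) c₁ hc₁
  have hhk0 : hk ≠ 0 := by
    rintro rfl
    rw [zero_pow hp.ne_zero, mul_zero] at hhk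
    exact G1_iter_ne_zero n h1 hm _ ha0 hhk
  refine ⟨c', hk * n^[2 * k₀] g₁, hc', mul_ne_zero hhk0 (G1_iter_ne_zero n h1 hm _ hg₁), ?_⟩
  have e : n^[2 * k₀] X = algebraMap Qbar (FF N) c' * a * (hk * n^[2 * k₀] g₁) ^ p := by
    rw [hX, G1_iter_mul n h1 hm, G1_iter_mul n h1 hm, G1_iter_pow n h1 hm, hcc', hhk, mul_pow]
    ring
  rw [e, IntermediateField.coe_mul, IntermediateField.coe_mul, IntermediateField.coe_pow,
    G1_coe_const] at hdeep
  exact hdeep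

theorem stmt_G1 (hD2 : Stmt_D2FF) (hUF : Stmt_UForm) : Stmt_G1 := by
  intro p _ hp hp2 A hA M _ _ hpM W hW ζ hζ n hn u hu huW hWuW ⟨g, hg⟩ ⟨g', hg'⟩ s hs c hc
  obtain ⟨hU1, hUm, -, -, -⟩ := hUF p ζ hζ
  have h1 : n 1 = 1 := Subtype.ext (by rw [hn]; exact hU1)
  have hm : ∀ x y, n (x * y) = n x * n y := fun x y => Subtype.ext (by
    rw [hn, IntermediateField.coe_mul, IntermediateField.coe_mul, hn, hn, hUm])
  have hu0 : u ≠ 0 := hu.1
  have hWu0 : W u ≠ 0 := fun h => hu0 ((map_eq_zero W).1 h)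
  have hg0 : g ≠ 0 := by
    rintro rfl
    rw [zero_pow hp.ne_zero] at hg
    exact mul_ne_zero hu0 (G1_ne_zero n h1 hm hWu0) hg
  have hg'0 : g' ≠ 0 := by
    rintro rfl
    rw [zero_pow hp.ne_zero] at hg'
    exact mul_ne_zero hWu0 (G1_ne_zero n h1 hm hu0) hg'
  -- `n (n u) = u * (n g' / g) ^ p`
  have e1 : n (n u) = u * (n g' * g⁻¹) ^ p := by
    have h2 : n (W u) * n (n u) = n g' ^ p := by rw [← hm, hg', G1_pow n h1 hm]
    have h3 : n (W u) ≠ 0 := G1_ne_zero n h1 hm hWu0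
    have h4 : g ^ p ≠ 0 := pow_ne_zero _ hg0
    rw [mul_pow, inv_pow, ← h2, ← hg]
    field_simp
  have e2 : n (n (W u)) = W u * (n g * g'⁻¹) ^ p := by
    have h2 : n u * n (n (W u)) = n g ^ p := by rw [← hm, hg, G1_pow n h1 hm]
    have h3 : n u ≠ 0 := G1_ne_zero n h1 hm hu0
    have h4 : g' ^ p ≠ 0 := pow_ne_zero _ hg'0
    rw [mul_pow, inv_pow, ← h2, ← hg']
    field_simp
  obtain ⟨w, hw⟩ : ∃ w : Qbar, w ^ (p - 1) = -(p : Qbar) :=
    IsAlgClosed.exists_pow_nat_eq _ (Nat.sub_pos_of_lt hp.one_lt)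
  have hSw : Sm A w := (stmt_UnifW p hp A hA w hw).1
  have hd : w ^ p * w ≠ 0 := mul_ne_zero (pow_ne_zero _ hSw.1) hSw.1
  exact hD2 p hp hp2 A hA M hpM W hW w w hw hSw u hu
    (G1_deep hUF hp hA hζ hn hu0 huW ⟨_, e1⟩ hd)
    (G1_deep hUF hp hA hζ hn hWu0 hWuW ⟨_, e2⟩ hd) s hs c hc

end Fermat.Agent.ORD.NM

end
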