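import Fermat.Agent.ORD.NM.Interface
import Fermat.Agent.BR.Inst.Interface2
import Fermat.Agent.BR.Inst.AL

/-!
# ORD / NM-CONG : two small bridges (`Stmt_InWOfCong`, `BR.Inst.Stmt_ALPrime`)
-/

set_option autoImplicit false

noncomputable section

namespace Fermat.Agent.ORD.NM

open ModularCurve
open Fermat.Agent.S24 (Qbar FF jBar)
open Fermat.Agent.ORD.Dep

theorem stmt_InWOfCong : Stmt_InWOfCong := by
  intro A N p u hu
  obtain ⟨f, hf0, y₁, y₂, -, -, h1, h2, h3⟩ := hu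
  refine ⟨1, f, one_ne_zero, hf0, ?_⟩
  have hx : cst 1 * (u : LaurentSeries Qbar) * (f : LaurentSeries Qbar) ^ p
      = ((u * f ^ p : FF N) : LaurentSeries Qbar) := by
    rw [cst, map_one, one_mul]
    rfl
  rw [hx, rd, INJ.Inst.Gauss.red_eq (f := y₁) (g := y₂) ⟨h3, h1⟩, h2]
  exact div_self h3

theorem Bridge_eq_jBar {N d : ℕ} [NeZero d] (hd : d ∣ N) {x : FF N}
    (hx : (x : LaurentSeries Qbar) = S28.jd Qbar d) : x = jBar N d hd :=
  Subtype.ext (by rw [hx, INJ.Inst.fricke_coe_jBar])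

theorem stmt_ALPrime : BR.Inst.Stmt_ALPrime := by
  intro M r _ hr hrM
  have hcop : Nat.Coprime M r := ((Nat.Prime.coprime_iff_not_dvd hr).2 hrM).symm
  refine ⟨BR.Inst.stmt_AL M r hcop, fun W => ⟨fun hF => ?_, fun hI => ?_⟩⟩
  · intro d e hd he x y hx hy
    have hM0 : M ≠ 0 := fun h => NeZero.ne (M * r) (by rw [h, zero_mul])
    have hd0 : d ≠ 0 := by
      rintro rfl
      exact hM0 (Nat.eq_zero_of_zero_dvd hd)
    have : NeZero d := ⟨hd0⟩
    have : NeZero (d * r) := ⟨mul_ne_zero hd0 hr.ne_zero⟩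
    have hd1 : d ∣ M * r := hd.trans (dvd_mul_right M r)
    have hd2 : d * r ∣ M * r := Nat.mul_dvd_mul_right hd r
    have hF' := hF d (d * r) hd1 hd2 rfl
    rcases (Nat.dvd_prime hr).1 he with rfl | rfl
    · rw [mul_one] at hx
      rw [Nat.div_one] at hy
      rw [Bridge_eq_jBar hd1 hx, Bridge_eq_jBar hd2 hy]
      exact hF'.1
    · rw [Nat.div_self hr.pos, mul_one] at hy
      rw [Bridge_eq_jBar hd2 hx, Bridge_eq_jBar hd1 hy]
      exact hF'.2
  · intro d e _ _ hd he hde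
    subst hde
    have hdM : d ∣ M := Nat.dvd_of_mul_dvd_mul_right hr.pos he
    constructor
    · refine hI d 1 hdM (one_dvd r) _ _ ?_ ?_
      · rw [mul_one]; exact INJ.Inst.fricke_coe_jBar _ _ _
      · rw [Nat.div_one]; exact INJ.Inst.fricke_coe_jBar _ _ _
    · refine hI d r hdM dvd_rfl _ _ ?_ ?_
      · exact INJ.Inst.fricke_coe_jBar _ _ _
      · rw [Nat.div_self hr.pos, mul_one]; exact INJ.Inst.fricke_coe_jBar _ _ _

end Fermat.Agent.ORD.NM

end

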