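import Fermat.Agent.ORD.NM.Interface
import Fermat.Agent.ORD.Dep.GOApi
import Fermat.Agent.ES.Mid.HF2
import Fermat.Agent.ES.Mid.HF3
import Fermat.Agent.INJ.Inst.Basic
import Fermat.Agent.INJ.Inst.Sat

/-!
# ORD / NM : (NM-WA) multiplicative weak approximation for `v_∞` and `v_0 = v_∞ ∘ W` (helper59)
-/

set_option autoImplicit false

noncomputable section

namespace Fermat.Agent.ORD.NM

open ModularCurve
open Fermat.Agent.S24 (Qbar FF)
open Fermat.Agent.INJ.Inst (kA)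
open Fermat.Agent.ORD.Dep

/-- `1 - (1 - t) ^ n = t * s`. -/
theorem WA_geom {A : ValuationSubring Qbar} {t : LaurentSeries Qbar} (ht : GO A t) (n : ℕ) :
    ∃ s : LaurentSeries Qbar, GO A s ∧ 1 - (1 - t) ^ n = t * s := by
  induction n with
  | zero => exact ⟨0, GO_zero, by simp⟩
  | succ n ih =>
    obtain ⟨s, hs, e⟩ := ih
    refine ⟨s + (1 - t) ^ n, hs.add ((GO_one.sub ht).pow n), ?_⟩
    rw [pow_succ]
    linear_combination e

/-- reduction of `j(q^d)`. -/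
theorem WA_jd (A : ValuationSubring Qbar) (d : ℕ) :
    GO A (S28.jd Qbar d) ∧ rd A (S28.jd Qbar d) = S28.jd (kA A) d := by
  have h1 := GO_inc (A := A) (S28.jd A d)
  have h2 := rd_inc (A := A) (S28.jd A d)
  rw [INJ.Inst.coeffMap_jd] at h1 h2
  rw [INJ.Inst.coeffMap_jd] at h2
  exact ⟨h1, h2⟩

/-- `jbar(q^p) = jbar(q)^p`. -/
theorem WA_frob (k : Type) [Field k] (p : ℕ) [Fact p.Prime] [CharP k p] :
    S28.jd k p = S28.jd k 1 ^ p := by
  have : NeZero p := ⟨(Fact.out : p.Prime).ne_zero⟩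
  rw [S28.jd, S28.jd, S28.Vq_eq, S28.Vq_eq, qExpand_one_apply, ES.Mid.HF2.pow_eq p (jqModC k),
    coeffMap_jqModC]

/-- `jbar(q) ≠ jbar(q^p)^p`. -/
theorem WA_ne (k : Type) [Field k] (p : ℕ) (hp : p.Prime) :
    S28.jd k 1 - S28.jd k p ^ p ≠ 0 := by
  have : NeZero p := ⟨hp.ne_zero⟩
  intro h
  have h1 := congrArg (fun y => HahnSeries.coeff y (-1 : ℤ)) h
  simp only [HahnSeries.coeff_sub, HahnSeries.coeff_zero] at h1
  rw [S28.jd, S28.jd, S28.Vq_eq, S28.Vq_eq, qExpand_one_apply, ← map_pow,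
    coeff_jqModC_neg_one, qExpand_coeff_of_not_dvd, sub_zero] at h1
  · exact one_ne_zero h1
  · intro hd
    have h2 : (p : ℤ) ∣ 1 := (dvd_neg).1 hd
    have h3 : p ∣ 1 := by exact_mod_cast h2
    exact hp.one_lt.ne' (Nat.dvd_one.1 h3)

/-- the separating element. -/
theorem WA_sep (p : ℕ) (hp : p.Prime) (A : ValuationSubring Qbar) (hA : A.LiesOverPrime p)
    (M : ℕ) [NeZero (M * p)] (W : FF (M * p) ≃ₐ[Qbar] FF (M * p)) (hW : BR.Inst.IsAL M p W) :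
    ∃ (δ : FF (M * p)) (c : Qbar) (z : LaurentSeries Qbar), W δ = 1 - δ ∧ Sm A c ∧ GO A z ∧
      (δ : LaurentSeries Qbar) = cst c * z := by
  have hN : M * p ≠ 0 := NeZero.ne _
  have : Fact p.Prime := ⟨hp⟩
  have : CharP (kA A) p := ES.Mid.HF3.charP_residue A p hA
  let j : FF (M * p) := ⟨S28.jd Qbar 1, INJ.Inst.jd_mem_bar hN (one_dvd _)⟩
  let jp : FF (M * p) := ⟨S28.jd Qbar p, INJ.Inst.jd_mem_bar hN (Dvd.intro_left M rfl)⟩
  have hWj : W j = jp := hW 1 1 (one_dvd _) (one_dvd _) j jp (by rw [one_mul])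
    (by rw [one_mul, Nat.div_one])
  have hWjp : W jp = j := hW 1 p (one_dvd _) dvd_rfl jp j (by rw [one_mul])
    (by rw [Nat.div_self hp.pos, one_mul])
  obtain ⟨hj, hrj⟩ := WA_jd A 1
  obtain ⟨hjp, hrjp⟩ := WA_jd A p
  have hWx : W (jp - j ^ p) = j - jp ^ p := by rw [map_sub, map_pow, hWj, hWjp]
  have hWWx : W (j - jp ^ p) = jp - j ^ p := by rw [map_sub, map_pow, hWj, hWjp]
  have ex : ((jp - j ^ p : FF (M * p)) : LaurentSeries Qbar) = S28.jd Qbar p - S28.jd Qbar 1 ^ p :=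
    rfl
  have ey : ((j - jp ^ p : FF (M * p)) : LaurentSeries Qbar) = S28.jd Qbar 1 - S28.jd Qbar p ^ p :=
    rfl
  have hx : GO A (S28.jd Qbar p - S28.jd Qbar 1 ^ p) := hjp.sub (hj.pow p)
  have hy : GO A (S28.jd Qbar 1 - S28.jd Qbar p ^ p) := hj.sub (hjp.pow p)
  have hrx : rd A (S28.jd Qbar p - S28.jd Qbar 1 ^ p) = 0 := by
    rw [rd_sub hjp (hj.pow p), rd_pow hj, hrj, hrjp, WA_frob (kA A) p, sub_self]
  have hry : rd A (S28.jd Qbar 1 - S28.jd Qbar p ^ p) ≠ 0 := by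
    rw [rd_sub hj (hjp.pow p), rd_pow hjp, hrj, hrjp]
    exact WA_ne (kA A) p hp
  have hy0 : j - jp ^ p ≠ 0 := by
    intro h0
    apply hry
    rw [← ey, h0]
    exact rd_zero
  have hx0 : jp - j ^ p ≠ 0 := by
    intro h0
    apply hy0
    rw [← hWx, h0, map_zero]
  have hrs : rd A ((S28.jd Qbar p - S28.jd Qbar 1 ^ p) + (S28.jd Qbar 1 - S28.jd Qbar p ^ p)) ≠ 0 := by
    rw [rd_add hx hy, hrx, zero_add]
    exact hry
  have hs0 : (jp - j ^ p) + (j - jp ^ p) ≠ 0 := by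
    intro h0
    apply hrs
    have : ((jp - j ^ p) + (j - jp ^ p) : FF (M * p)).1 = 0 := by rw [h0]; rfl
    rw [← ex, ← ey]
    exact (congrArg (rd A) this).trans rd_zero
  have eδ : (((jp - j ^ p) / ((jp - j ^ p) + (j - jp ^ p)) : FF (M * p)) : LaurentSeries Qbar) =
      (S28.jd Qbar p - S28.jd Qbar 1 ^ p) /
        ((S28.jd Qbar p - S28.jd Qbar 1 ^ p) + (S28.jd Qbar 1 - S28.jd Qbar p ^ p)) := rfl
  obtain ⟨c, hc, z, hz, e⟩ := exists_small (A := A) (M * p)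
    (u := (jp - j ^ p) / ((jp - j ^ p) + (j - jp ^ p))) (div_ne_zero hx0 hs0)
    (by rw [eδ]; exact hx.div (hx.add hy) hrs)
    (by rw [eδ, rd_div hx (hx.add hy) hrs, hrx, zero_div])
  refine ⟨_, c, z, ?_, hc, hz, by rw [e, zero_add]⟩
  rw [map_div₀, map_add, hWx, hWWx, eq_sub_iff_add_eq, add_comm (j - jp ^ p) (jp - j ^ p),
    ← add_div, add_comm (j - jp ^ p) (jp - j ^ p), div_self hs0]

/-- every element of `F_N` becomes Gauss-integral after multiplication by a nonzero constant. -/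
theorem WA_norm (A : ValuationSubring Qbar) (N : ℕ) [NeZero N] (u : FF N) :
    ∃ c : Qbar, c ≠ 0 ∧ GO A (cst c * (u : LaurentSeries Qbar)) := by
  by_cases hu : u = 0
  · refine ⟨1, one_ne_zero, ?_⟩
    rw [hu]
    have : ((0 : FF N) : LaurentSeries Qbar) = 0 := rfl
    rw [this, mul_zero]
    exact GO_zero
  · obtain ⟨c, hc, h, -⟩ := exists_norm A N hu
    exact ⟨c, hc, h⟩

/-- rank one, uniform version. -/
theorem WA_arch {p : ℕ} (hp : p.Prime) {A : ValuationSubring Qbar} (hA : A.LiesOverPrime p)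
    {c : Qbar} (hc : c ∈ A.nonunits) {a : Qbar} (ha : a ≠ 0) :
    ∃ n : ℕ, ∀ m : ℕ, n ≤ m → c ^ m * a⁻¹ ∈ A := by
  have : Algebra.IsAlgebraic ℚ Qbar := AlgebraicClosure.isAlgebraic ℚ
  obtain ⟨n, hn⟩ := INJ.Inst.Sat.arch hp hA c hc a ha
  refine ⟨n, fun m hm => ?_⟩
  obtain ⟨k, rfl⟩ := Nat.exists_eq_add_of_le hm
  have : c ^ (n + k) * a⁻¹ = c ^ k * (c ^ n * a⁻¹) := by ring
  rw [this]
  exact mul_mem (pow_mem (A.nonunits_subset hc) k) hn

/-- `u * (c z)^n * s ≡ 0 mod d` as soon as `c^n / (c₀ d) ∈ A`. -/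
theorem WA_cg {A : ValuationSubring Qbar} {c c₀ d : Qbar} (hc₀ : c₀ ≠ 0) (hd : d ≠ 0) {n : ℕ}
    (h : c ^ n * (c₀ * d)⁻¹ ∈ A) {u z s y : LaurentSeries Qbar} (hu : GO A (cst c₀ * u))
    (hz : GO A z) (hs : GO A s) (hy : y - 1 = u * ((cst c * z) ^ n * s)) : Cg A d y 1 := by
  refine ⟨cst (c ^ n * (c₀ * d)⁻¹) * ((cst c₀ * u) * (z ^ n * s)),
    (GO_cst h).mul (hu.mul ((hz.pow n).mul hs)), ?_⟩
  have h1 : cst d * (cst (c ^ n * (c₀ * d)⁻¹) * (cst c₀ * u * (z ^ n * s))) =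
      cst (d * (c ^ n * (c₀ * d)⁻¹) * c₀) * (u * (z ^ n * s)) := by
    rw [cst_mul (d * (c ^ n * (c₀ * d)⁻¹)) c₀, cst_mul d]
    ring
  have h2 : d * (c ^ n * (c₀ * d)⁻¹) * c₀ = c ^ n := by
    field_simp
  have h3 : cst (c ^ n) = cst c ^ n := map_pow _ _ _
  rw [h1, h2, h3]
  linear_combination hy

theorem stmt_WA : Stmt_WA := by
  intro p hp A hA M _ hpM W hW a b ha hb d hd
  obtain ⟨δ, c, z, hWδ, hc, hz, hδ⟩ := WA_sep p hp A hA M W hW
  have hδG : GO A (δ : LaurentSeries Qbar) := by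
    rw [hδ]
    exact (GO_cst (A.nonunits_subset hc.2)).mul hz
  obtain ⟨c₀, hc₀, hu₀⟩ := WA_norm A (M * p) (b * a⁻¹ - 1)
  obtain ⟨c₁, hc₁, hu₁⟩ := WA_norm A (M * p) (W (a * b⁻¹ - 1))
  obtain ⟨n₁, hn₁⟩ := WA_arch hp hA hc.2 (mul_ne_zero hc₀ hd)
  obtain ⟨n₂, hn₂⟩ := WA_arch hp hA hc.2 (mul_ne_zero hc₁ hd)
  obtain ⟨n₃, hn₃⟩ := WA_arch hp hA hc.2 (mul_ne_zero hc₀ hc.1)
  set n := n₁ + n₂ + n₃ with hn
  -- `1 - e = (1 - (1 - δ)^n)^n`
  obtain ⟨r, hr, her⟩ := WA_geom hδG n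
  obtain ⟨r', hr', her'⟩ := WA_geom (hδG.pow n) n
  set e : FF (M * p) := 1 - (1 - (1 - δ) ^ n) ^ n with he
  have he1 : ((1 - e : FF (M * p)) : LaurentSeries Qbar) = (cst c * z) ^ n * r ^ n := by
    have : ((1 - e : FF (M * p)) : LaurentSeries Qbar) =
        (1 - (1 - (δ : LaurentSeries Qbar)) ^ n) ^ n := by
      rw [he, sub_sub_cancel]
      rfl
    rw [this, her, mul_pow, hδ]
  have hWe : W e = 1 - (1 - δ ^ n) ^ n := by
    rw [he, map_sub, map_pow, map_sub, map_pow, map_sub, map_one, hWδ, sub_sub_cancel]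
  have he2 : ((W e : FF (M * p)) : LaurentSeries Qbar) = (cst c * z) ^ n * r' := by
    have : ((W e : FF (M * p)) : LaurentSeries Qbar) =
        1 - (1 - (δ : LaurentSeries Qbar) ^ n) ^ n := by
      rw [hWe]
      rfl
    rw [this, her', hδ]
  have hg1 : (a * e + b * (1 - e)) * a⁻¹ - 1 = (b * a⁻¹ - 1) * (1 - e) := by
    field_simp
    ring
  have hg2 : (a * e + b * (1 - e)) * b⁻¹ - 1 = (a * b⁻¹ - 1) * e := by
    field_simp
    ring
  have hy1 : (((a * e + b * (1 - e)) * a⁻¹ : FF (M * p)) : LaurentSeries Qbar) - 1 =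
      ((b * a⁻¹ - 1 : FF (M * p)) : LaurentSeries Qbar) * ((cst c * z) ^ n * r ^ n) := by
    rw [← he1]
    exact congrArg Subtype.val hg1
  have hy2 : ((W ((a * e + b * (1 - e)) * b⁻¹) : FF (M * p)) : LaurentSeries Qbar) - 1 =
      ((W (a * b⁻¹ - 1) : FF (M * p)) : LaurentSeries Qbar) * ((cst c * z) ^ n * r') := by
    rw [← he2]
    have := congrArg W hg2
    rw [map_sub, map_one, map_mul (W : FF (M * p) ≃ₐ[Qbar] FF (M * p)) (a * b⁻¹ - 1) e] at this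
    exact congrArg Subtype.val this
  have hcg3 : Cg A c (((a * e + b * (1 - e)) * a⁻¹ : FF (M * p)) : LaurentSeries Qbar) 1 :=
    WA_cg hc₀ hc.1 (hn₃ n (by omega)) hu₀ hz (hr.pow n) hy1
  refine ⟨a * e + b * (1 - e), ?_, WA_cg hc₀ hd (hn₁ n (by omega)) hu₀ hz (hr.pow n) hy1,
    WA_cg hc₁ hd (hn₂ n (by omega)) hu₁ hz hr' hy2⟩
  intro h0
  have h1 := hcg3.rd_eq hc.2 GO_one
  rw [h0, zero_mul, rd_one] at h1
  have : ((0 : FF (M * p)) : LaurentSeries Qbar) = 0 := rfl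
  rw [this, rd_zero] at h1
  exact zero_ne_one h1

end Fermat.Agent.ORD.NM

end
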