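import Fermat.Agent.ORD.Dep.Interface
import Fermat.Agent.BR.Inst.Defs
import Fermat.Agent.BR.F.Defs

/-!
# ORD / NM : the norm `F_{Mp} → F_M`, weak approximation, and the contract `G1, G2, G3` with `[FIN]`
(architect: helper79)

Level `N = M * p`, `p ∤ M`, `W = w_p` the Atkin-Lehner involution of `F_N` (`BR.Inst.IsAL M p W`),
`n = N_p` the multiplicative `U_p` (`(n u : ℚ̄((q))) = formalU p ζ u`), `~` = equality modulo `p`-th
powers of `F_N`.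

Output (consumed by `[FIN]`, helper11), all per element:
* `Stmt_G1` (= Lemma D'') : `u, W u ∈ W_∞`, `n (W u) ~ u⁻¹`, `n u ~ (W u)⁻¹` ⟹ `I` acts through `ω`;
* `Stmt_G2` (= Lemma D')  : `z = x * n (W x)`, `x, W x ∈ W_∞`, `T^J z ~ z` ⟹ `I` acts through `ω`;
* `Stmt_G3` (= Lemma D)   : `z = x * n (W x)`, `x, W x ∈ W_∞`, `T z ~ 1`, `I` acts through `ω` ⟹ `z ~ 1`;
where `T z = W z * n z`.

Every package proves `theorem stmt_xxx (h.. : Stmt_..) : Stmt_xxx` in its own NEW file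
`Fermat/Agent/ORD/NM/<Name>.lean` importing this one.
-/

set_option autoImplicit false

noncomputable section

namespace Fermat.Agent.ORD.NM

open ModularCurve
open Fermat.Agent.S24 (Qbar FF)
open Fermat.Agent.ES.Mid (GQ gal IsDiv formalN twProd compress tw CongOne)
open Fermat.Agent.INJ.Inst (kA)
open Fermat.Agent.ORD.Dep

/-! ### 1. the operators -/

/-- (NM-UMEM) `N_p` preserves `F_N` and `U_m(N)`, `p ∣ N` (from `BR/F/UGlue.lean`). -/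
def Stmt_UMem : Prop :=
  ∀ (N : ℕ) [NeZero N] (p : ℕ) [NeZero p], p.Prime → p ∣ N → ∀ ζ : Qbarˣ, IsPrimitiveRoot ζ p →
  ∀ u : FF N, ∃ v : FF N, (v : LaurentSeries Qbar) = formalU p ζ (u : LaurentSeries Qbar) ∧
    (u ≠ 0 → v ≠ 0) ∧ ∀ m : ℕ, m ≠ 0 → IsDiv N m u → IsDiv N m v

/-- (NM-UFORM) formal properties of `formalU`. -/
def Stmt_UForm : Prop :=
  ∀ (p : ℕ) [NeZero p] (ζ : Qbarˣ), IsPrimitiveRoot ζ p →
    formalU p ζ 1 = 1 ∧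
    (∀ x y : LaurentSeries Qbar, formalU p ζ (x * y) = formalU p ζ x * formalU p ζ y) ∧
    (∀ c : Qbar, formalU p ζ (cst c) = cst (c ^ p)) ∧
    (∀ x : LaurentSeries Qbar, formalN p ζ x = qExpand Qbar p x * formalU p ζ x) ∧
    (∀ (σ : GQ) (x : LaurentSeries Qbar), coeffMap (σ : Qbar →+* Qbar) (formalU p ζ x) =
      formalU p ζ (coeffMap (σ : Qbar →+* Qbar) x))

/-- (NM-NORM) the norm `F_{Mp} → F_M` on `q`-expansions : `Nm u = u * N_p (W u)`. -/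
def Stmt_Norm : Prop :=
  ∀ (p : ℕ) [NeZero p], p.Prime → ∀ (M : ℕ) [NeZero (M * p)], ¬ p ∣ M →
  ∀ W : FF (M * p) ≃ₐ[Qbar] FF (M * p), BR.Inst.IsAL M p W →
  ∀ ζ : Qbarˣ, IsPrimitiveRoot ζ p → ∀ u : FF (M * p), ∃ y : FF M,
    (y : LaurentSeries Qbar) =
      (u : LaurentSeries Qbar) * formalU p ζ ((W u : FF (M * p)) : LaurentSeries Qbar)

/-- (NM-INJ) `F_M^× / p → F_{Mp}^× / p` is injective (`[F_{Mp} : F_M] = p + 1`). -/
def Stmt_InjCl : Prop :=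
  ∀ (p : ℕ), p.Prime → ∀ (M : ℕ) [NeZero (M * p)], ¬ p ∣ M →
  ∀ (y : FF M) (g : FF (M * p)), (g : LaurentSeries Qbar) ^ p = (y : LaurentSeries Qbar) →
    ∃ g' : FF M, g' ^ p = y

/-- (NM-DIV) `U_p` descends (`∑ e_Q = p + 1` is prime to `p`). -/
def Stmt_DivDesc : Prop :=
  ∀ (p : ℕ), p.Prime → ∀ (M : ℕ) [NeZero (M * p)], ¬ p ∣ M →
  ∀ (y : FF M) (z : FF (M * p)), (z : LaurentSeries Qbar) = (y : LaurentSeries Qbar) →
    IsDiv (M * p) p z → IsDiv M p y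

/-- (NM-WA) multiplicative weak approximation for `v_∞` and `v_0 = v_∞ ∘ W`. -/
def Stmt_WA : Prop :=
  ∀ (p : ℕ), p.Prime → ∀ A : ValuationSubring Qbar, A.LiesOverPrime p →
  ∀ (M : ℕ) [NeZero (M * p)], ¬ p ∣ M →
  ∀ W : FF (M * p) ≃ₐ[Qbar] FF (M * p), BR.Inst.IsAL M p W →
  ∀ a b : FF (M * p), a ≠ 0 → b ≠ 0 → ∀ d : Qbar, d ≠ 0 → ∃ g : FF (M * p), g ≠ 0 ∧
    Cg A d ((g * a⁻¹ : FF (M * p)) : LaurentSeries Qbar) 1 ∧
    Cg A d ((W (g * b⁻¹) : FF (M * p)) : LaurentSeries Qbar) 1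

/-- (NM-CONG) bridge from the `CongOne` language of `ES/Mid`, `BR/F`. -/
def Stmt_InWOfCong : Prop :=
  ∀ (A : ValuationSubring Qbar) (N p : ℕ) (u : FF N), BR.F.ClassCong N p A u → InW A N p u

/-! ### 2. input from `INJ/Deep` (helper49) -/

/-- (D2FF) **second half of Lemma D''** : a class which is deep at `v_∞` and at `v_0`. -/
def Stmt_D2FF : Prop :=
  ∀ (p : ℕ), p.Prime → p ≠ 2 → ∀ A : ValuationSubring Qbar, A.LiesOverPrime p →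
  ∀ (M : ℕ) [NeZero (M * p)], ¬ p ∣ M →
  ∀ W : FF (M * p) ≃ₐ[Qbar] FF (M * p), BR.Inst.IsAL M p W →
  ∀ w π' : Qbar, w ^ (p - 1) = -(p : Qbar) → Sm A π' →
  ∀ u : FF (M * p), IsDiv (M * p) p u →
    (∃ (c : Qbar) (g : FF (M * p)), c ≠ 0 ∧ g ≠ 0 ∧ Cg A (w ^ p * π')
      (cst c * (u : LaurentSeries Qbar) * (g : LaurentSeries Qbar) ^ p) 1) →
    (∃ (c : Qbar) (g : FF (M * p)), c ≠ 0 ∧ g ≠ 0 ∧ Cg A (w ^ p * π')
      (cst c * ((W u : FF (M * p)) : LaurentSeries Qbar) * (g : LaurentSeries Qbar) ^ p) 1) →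
    ∀ s ∈ A.inertiaSubgroupIn ℚ, ∀ c : ℕ, ActsMu p s c →
      ∃ g : FF (M * p), gal (M * p) s u = u ^ c * g ^ p

/-! ### 3. the contract with `[FIN]` -/

/-- (NM-OLD) the class `x * n (W x)` comes from a class `y` of level `M` lying in `U_p(M) ∩ W_∞`. -/
def Stmt_Old : Prop :=
  ∀ (p : ℕ) [NeZero p], p.Prime → ∀ A : ValuationSubring Qbar, A.LiesOverPrime p →
  ∀ (M : ℕ) [NeZero M] [NeZero (M * p)], ¬ p ∣ M →
  ∀ W : FF (M * p) ≃ₐ[Qbar] FF (M * p), BR.Inst.IsAL M p W →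
  ∀ ζ : Qbarˣ, IsPrimitiveRoot ζ p →
  ∀ x : FF (M * p), IsDiv (M * p) p x → InW A (M * p) p x → InW A (M * p) p (W x) →
    ∃ y : FF M, (y : LaurentSeries Qbar) =
        (x : LaurentSeries Qbar) * formalU p ζ ((W x : FF (M * p)) : LaurentSeries Qbar) ∧
      IsDiv M p y ∧ InW A M p y

/-- (NM-T) `T = W + n` on the image of level `M` is `T_p` : if `z = y` as series, `y ∈ F_M`, then
`T^J z = (formalN p ζ)^[J] y`. -/
def Stmt_TOld : Prop :=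
  ∀ (p : ℕ) [NeZero p], p.Prime → ∀ (M : ℕ) [NeZero M] [NeZero (M * p)], ¬ p ∣ M →
  ∀ W : FF (M * p) ≃ₐ[Qbar] FF (M * p), BR.Inst.IsAL M p W →
  ∀ ζ : Qbarˣ, IsPrimitiveRoot ζ p →
  ∀ n : FF (M * p) → FF (M * p),
    (∀ u, (n u : LaurentSeries Qbar) = formalU p ζ (u : LaurentSeries Qbar)) →
  ∀ (y : FF M) (z : FF (M * p)), (z : LaurentSeries Qbar) = (y : LaurentSeries Qbar) → ∀ J : ℕ,
    ∃ y' : FF M, (y' : LaurentSeries Qbar) = (formalN p ζ)^[J] (y : LaurentSeries Qbar) ∧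
      (((fun z => W z * n z)^[J] z : FF (M * p)) : LaurentSeries Qbar) = (y' : LaurentSeries Qbar)

/-- **G1** (= Lemma D''). -/
def Stmt_G1 : Prop :=
  ∀ (p : ℕ) [NeZero p], p.Prime → p ≠ 2 → ∀ A : ValuationSubring Qbar, A.LiesOverPrime p →
  ∀ (M : ℕ) [NeZero M] [NeZero (M * p)], ¬ p ∣ M →
  ∀ W : FF (M * p) ≃ₐ[Qbar] FF (M * p), BR.Inst.IsAL M p W →
  ∀ ζ : Qbarˣ, IsPrimitiveRoot ζ p →
  ∀ n : FF (M * p) → FF (M * p),
    (∀ u, (n u : LaurentSeries Qbar) = formalU p ζ (u : LaurentSeries Qbar)) →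
  ∀ u : FF (M * p), IsDiv (M * p) p u → InW A (M * p) p u → InW A (M * p) p (W u) →
    (∃ g : FF (M * p), u * n (W u) = g ^ p) → (∃ g : FF (M * p), W u * n u = g ^ p) →
    ∀ s ∈ A.inertiaSubgroupIn ℚ, ∀ c : ℕ, ActsMu p s c →
      ∃ g : FF (M * p), gal (M * p) s u = u ^ c * g ^ p

/-- **G2** (= Lemma D'). -/
def Stmt_G2 : Prop :=
  ∀ (p : ℕ) [NeZero p], p.Prime → p ≠ 2 → ∀ A : ValuationSubring Qbar, A.LiesOverPrime p →
  ∀ (M : ℕ) [NeZero M] [NeZero (M * p)], ¬ p ∣ M →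
  ∀ W : FF (M * p) ≃ₐ[Qbar] FF (M * p), BR.Inst.IsAL M p W →
  ∀ ζ : Qbarˣ, IsPrimitiveRoot ζ p →
  ∀ n : FF (M * p) → FF (M * p),
    (∀ u, (n u : LaurentSeries Qbar) = formalU p ζ (u : LaurentSeries Qbar)) →
  ∀ x : FF (M * p), IsDiv (M * p) p x → InW A (M * p) p x → InW A (M * p) p (W x) →
    (∃ (J : ℕ) (g : FF (M * p)), 0 < J ∧
      (fun z => W z * n z)^[J] (x * n (W x)) = x * n (W x) * g ^ p) →
    ∀ s ∈ A.inertiaSubgroupIn ℚ, ∀ c : ℕ, ActsMu p s c →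
      ∃ g : FF (M * p), gal (M * p) s (x * n (W x)) = (x * n (W x)) ^ c * g ^ p

/-- **G3** (= Lemma D). -/
def Stmt_G3 : Prop :=
  ∀ (p : ℕ) [NeZero p], p.Prime → p ≠ 2 → ∀ A : ValuationSubring Qbar, A.LiesOverPrime p →
  ∀ (M : ℕ) [NeZero M] [NeZero (M * p)], ¬ p ∣ M →
  ∀ W : FF (M * p) ≃ₐ[Qbar] FF (M * p), BR.Inst.IsAL M p W →
  ∀ ζ : Qbarˣ, IsPrimitiveRoot ζ p →
  ∀ n : FF (M * p) → FF (M * p),
    (∀ u, (n u : LaurentSeries Qbar) = formalU p ζ (u : LaurentSeries Qbar)) →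
  ∀ x : FF (M * p), IsDiv (M * p) p x → InW A (M * p) p x → InW A (M * p) p (W x) →
    (∃ g : FF (M * p), W (x * n (W x)) * n (x * n (W x)) = g ^ p) →
    (∀ s ∈ A.inertiaSubgroupIn ℚ, ∀ c : ℕ, ActsMu p s c →
      ∃ g : FF (M * p), gal (M * p) s (x * n (W x)) = (x * n (W x)) ^ c * g ^ p) →
    ∃ g : FF (M * p), x * n (W x) = g ^ p

end Fermat.Agent.ORD.NM

end
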