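import Fermat.Agent.ORD.NM.Interface
import Fermat.Agent.RED.G4
import Fermat.Agent.RED.G1G5
import Fermat.Agent.INJ.Inst.DescentDeg

/-!
# ORD / NM, package NM-DIV (helper38): `IsDiv` descends from level `M * p` to level `M`
(`∑ e_Q = p + 1` is prime to `p`).
-/

set_option autoImplicit false
set_option synthInstance.maxHeartbeats 400000

noncomputable section

namespace Fermat.Agent.ORD.NM

open ModularCurve AlgebraicCurve IntermediateField
open Fermat.Agent.S24 (Qbar FF jF)
open Fermat.Agent.ES.Mid (IsDiv)
open Fermat.Agent.INJ.Inst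

theorem DivDesc_relfinrank (p M : ℕ) [NeZero M] [NeZero (M * p)] (hp : p.Prime) (hpM : ¬ p ∣ M) :
    relfinrank (modularFunctionFieldBar M) (modularFunctionFieldBar (M * p)) = p + 1 := by
  have h := Descent.psi_mul_relfinrank (Dvd.intro _ rfl : M ∣ M * p)
  apply Nat.eq_of_mul_eq_mul_left (Descent.psi_pos M)
  rw [h, mul_comm M p, S20.dedekindPsi_prime_mul_of_not_dvd hp (NeZero.ne M) hpM, mul_comm]

/-- the degree of `F' / F` for the algebra structure given by the inclusion. -/
theorem DivDesc_finrank {K L : Type*} [Field K] [Field L] [Algebra K L]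
    {F F' : IntermediateField K L} (h : F ≤ F') :
    @Module.finrank F F' _ _ (IntermediateField.inclusion h).toRingHom.toAlgebra.toModule
      = relfinrank F F' := by
  let _ : Algebra F F' := (IntermediateField.inclusion h).toRingHom.toAlgebra
  let e : F' ≃ₗ[F] extendScalars h :=
    { toFun := fun x => ⟨x.1, x.2⟩
      invFun := fun x => ⟨x.1, x.2⟩
      map_add' := fun _ _ => rfl
      map_smul' := fun _ _ => rfl
      left_inv := fun _ => rfl
      right_inv := fun _ => rfl }
  rw [e.finrank_eq, ← relfinrank_eq_finrank_of_le h]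

/-- abstract form: in an extension of function fields of degree `p + 1`, divisibility by `p` of the
divisor descends. -/
theorem DivDesc_abs (K F F' : Type) [Field K] [IsAlgClosed K] [CharZero K] [Field F] [Field F']
    [Algebra K F] [Algebra K F'] [Algebra F F'] [IsScalarTower K F F'] (x : F)
    (hx : Transcendental K x) (hfd : FiniteDimensional K⟮x⟯ F) (x' : F')
    (hx' : Transcendental K x') (hfd' : FiniteDimensional K⟮x'⟯ F') (p : ℕ) (hp : p.Prime)
    (hfin : Module.finrank F F' = p + 1) (y : F)
    (hy : ∀ w : Place K F', (p : ℤ) ∣ w.ord (algebraMap F F' y)) (P : Place K F) :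
    (p : ℤ) ∣ P.ord y := by
  have : Module.Finite F F' := Module.finite_of_finrank_pos (by omega)
  have : Algebra.IsIntegral F F' := Algebra.IsIntegral.of_finite _ _
  have hP : HasPrincipalDivisors K F' := RED.stmt_G1 K F' x' hx' hfd'
  have hsum := RED.stmt_G4_sum_ramificationIndex K F F' x hx hfd P
  rw [hfin] at hsum
  obtain ⟨w, hw, hpw⟩ : ∃ w ∈ P.fiber F', ¬ p ∣ w.ramificationIndex F := by
    by_contra hcon
    push Not at hcon
    have h1 : p ∣ p + 1 := by
      rw [← hsum]
      exact Finset.dvd_sum hcon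
    have h2 : p ∣ 1 := (Nat.dvd_add_right (dvd_refl p)).1 h1
    exact hp.one_lt.ne' (Nat.dvd_one.1 h2)
  have h3 := w.ord_restrict (F := F) y
  rw [Place.mem_fiber.mp hw] at h3
  have h4 : (p : ℤ) ∣ (w.ramificationIndex F : ℤ) * P.ord y := by
    rw [← h3]
    exact hy w
  rcases (Nat.prime_iff_prime_int.1 hp).dvd_or_dvd h4 with h5 | h5
  · exact absurd (Int.natCast_dvd_natCast.1 h5) hpw
  · exact h5

/-- (NM-DIV) -/
theorem stmt_DivDesc : Stmt_DivDesc := by
  intro p hp M _ hpM y z hzy hz
  have hM0 : NeZero M := ⟨fun h => NeZero.ne (M * p) (by rw [h, zero_mul])⟩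
  have hdvd : M ∣ M * p := Dvd.intro _ rfl
  have hle : modularFunctionFieldBar M ≤ modularFunctionFieldBar (M * p) := Descent.bar_le hdvd
  let _ : Algebra (modularFunctionFieldBar M) (modularFunctionFieldBar (M * p)) :=
    (IntermediateField.inclusion hle).toRingHom.toAlgebra
  have : IsScalarTower Qbar (modularFunctionFieldBar M) (modularFunctionFieldBar (M * p)) :=
    IsScalarTower.of_algebraMap_eq (fun x => rfl)
  have hfin : Module.finrank (FF M) (FF (M * p)) = p + 1 :=
    (DivDesc_finrank hle).trans (DivDesc_relfinrank p M hp hpM)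
  have hj : Transcendental Qbar (jF M) := Fermat.Agent.S24.DegBd.transcendental_jF M
  have hfd : FiniteDimensional Qbar⟮jF M⟯ (FF M) := (Fermat.Agent.S24.finrank_FF_le M).1
  have hj' : Transcendental Qbar (jF (M * p)) := Fermat.Agent.S24.DegBd.transcendental_jF (M * p)
  have hfd' : FiniteDimensional Qbar⟮jF (M * p)⟯ (FF (M * p)) :=
    (Fermat.Agent.S24.finrank_FF_le (M * p)).1
  have hyz : algebraMap (FF M) (FF (M * p)) y = z := by
    have h1 : algebraMap (FF M) (FF (M * p)) = (IntermediateField.inclusion hle).toRingHom :=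
      RingHom.algebraMap_toAlgebra _
    rw [h1]
    exact Subtype.ext ((IntermediateField.coe_inclusion hle y).trans hzy.symm)
  have hy0 : y ≠ 0 := by
    rintro rfl
    rw [map_zero] at hyz
    exact hz.1 hyz.symm
  refine ⟨hy0, fun P => ?_⟩
  exact DivDesc_abs Qbar (FF M) (FF (M * p)) (jF M) hj hfd (jF (M * p)) hj' hfd' p hp hfin y
    (fun w => by rw [hyz]; exact hz.2 w) P

end Fermat.Agent.ORD.NM

end
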