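import Fermat.Agent.ORD.NM.Interface
import Fermat.Agent.INJ.Inst.DescentDeg

/-!
# ORD / NM : **G2** (= Lemma D' transported to level `M * p`)
-/

set_option autoImplicit false

namespace Fermat.Agent.ORD.NM

open ModularCurve
open Fermat.Agent.S24 (Qbar FF)
open Fermat.Agent.ES.Mid (GQ gal coe_gal IsDiv formalN twProd compress tw CongOne)
open Fermat.Agent.INJ.Inst (kA)
open Fermat.Agent.ORD.Dep

theorem stmt_G2 (hOld : Stmt_Old) (hT : Stmt_TOld) (hInj : Stmt_InjCl) (hD : Dep.Stmt_LemmaD') :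
    Stmt_G2 := by
  intro p _ hp hp2 A hA M _ _ hpM W hW ζ hζ n hn x hx1 hx2 hx3 hJ s hs c hc
  obtain ⟨J, g, hJ0, hg⟩ := hJ
  obtain ⟨y, hy, hyD, hyW⟩ := hOld p hp A hA M hpM W hW ζ hζ x hx1 hx2 hx3
  set z : FF (M * p) := x * n (W x) with hz
  have hzy : (z : LaurentSeries Qbar) = (y : LaurentSeries Qbar) := by
    rw [hy, ← hn (W x)]
    rfl
  obtain ⟨y', hy', hTy⟩ := hT p hp M hpM W hW ζ hζ n hn y z hzy J
  have hy0 : y ≠ 0 := hyD.1
  have hy0' : (y : LaurentSeries Qbar) ≠ 0 := fun h => hy0 (Subtype.ext h)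
  -- `y' = y * g ^ p` as series
  have e1 : (y' : LaurentSeries Qbar) = (y : LaurentSeries Qbar) * (g : LaurentSeries Qbar) ^ p := by
    rw [← hTy, hg, ← hzy]
    rfl
  have e2 : (g : LaurentSeries Qbar) ^ p = ((y' / y : FF M) : LaurentSeries Qbar) := by
    have : ((y' / y : FF M) : LaurentSeries Qbar)
        = (y' : LaurentSeries Qbar) / (y : LaurentSeries Qbar) := rfl
    rw [this, e1]
    field_simp
  obtain ⟨g', hg'⟩ := hInj p hp M hpM (y' / y) g e2
  have e3 : (formalN p ζ)^[J] (y : LaurentSeries Qbar)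
      = (y : LaurentSeries Qbar) * (g' : LaurentSeries Qbar) ^ p := by
    have : (g' : LaurentSeries Qbar) ^ p = ((g' ^ p : FF M) : LaurentSeries Qbar) := rfl
    rw [← hy', this, hg', ← e2, e1]
  obtain ⟨h, hh⟩ := hD p hp hp2 A hA M hpM ζ hζ y hyD hyW ⟨J, g', hJ0, e3⟩ s hs c hc
  have hle : modularFunctionFieldBar M ≤ modularFunctionFieldBar (M * p) :=
    INJ.Inst.Descent.bar_le (Dvd.intro p rfl)
  refine ⟨⟨(h : LaurentSeries Qbar), hle h.2⟩, Subtype.ext ?_⟩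
  have e4 : ((gal M s y : FF M) : LaurentSeries Qbar)
      = (y : LaurentSeries Qbar) ^ c * (h : LaurentSeries Qbar) ^ p := by
    rw [hh]
    rfl
  rw [coe_gal, hzy, ← coe_gal, e4, ← hzy]
  rfl

end Fermat.Agent.ORD.NM

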