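import Fermat.Agent.ORD.NM.Interface
import Fermat.Agent.INJ.Inst.Descent

/-!
# ORD / NM, task NM-G3 : `Stmt_G3` (= Lemma D transported to level `M * p`)
-/

set_option autoImplicit false
set_option synthInstance.maxHeartbeats 400000

noncomputable section

namespace Fermat.Agent.ORD.NM

open ModularCurve
open Fermat.Agent.S24 (Qbar FF)
open Fermat.Agent.ES.Mid (GQ gal coe_gal IsDiv formalN twProd compress tw CongOne)
open Fermat.Agent.INJ.Inst (kA)
open Fermat.Agent.ORD.Dep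

/-- **G3** (= Lemma D). -/
theorem stmt_G3 (hOld : Stmt_Old) (hT : Stmt_TOld) (hInj : Stmt_InjCl) (hD : Dep.Stmt_LemmaD) :
    Stmt_G3 := by
  intro p _ hp hp2 A hA M _ _ hpM W hW ζ hζ n hn x hxd hxW hWxW ⟨g0, hg0⟩ hI
  obtain ⟨y, hy, hyd, -⟩ := hOld p hp A hA M hpM W hW ζ hζ x hxd hxW hWxW
  -- `z = y` as series
  have hz : ((x * n (W x) : FF (M * p)) : LaurentSeries Qbar) = (y : LaurentSeries Qbar) := by
    rw [hy, ← hn (W x)]
    rfl
  -- first hypothesis of Lemma D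
  obtain ⟨y', hy', hTy⟩ := hT p hp M hpM W hW ζ hζ n hn y (x * n (W x)) hz 1
  rw [Function.iterate_one] at hy' hTy
  have h1 : ∃ g : FF M, formalN p ζ (y : LaurentSeries Qbar) = (g : LaurentSeries Qbar) ^ p := by
    obtain ⟨g', hg'⟩ := hInj p hp M hpM y' g0 (by
      rw [← hTy, hg0]
      rfl)
    refine ⟨g', ?_⟩
    rw [← hy', ← hg']
    rfl
  -- second hypothesis of Lemma D
  have h2 : ∀ s ∈ A.inertiaSubgroupIn ℚ, ∀ c : ℕ, ActsMu p s c →
      ∃ g : FF M, gal M s y = y ^ c * g ^ p := by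
    intro s hs c hc
    obtain ⟨g, hg⟩ := hI s hs c hc
    have hyc : y ^ c ≠ 0 := pow_ne_zero c hyd.1
    have hyc' : (y : LaurentSeries Qbar) ^ c ≠ 0 := fun h0 => hyc (Subtype.ext h0)
    have hser : ((gal M s y : FF M) : LaurentSeries Qbar) =
        (y : LaurentSeries Qbar) ^ c * (g : LaurentSeries Qbar) ^ p := by
      have h3 := congrArg (Subtype.val) hg
      rw [coe_gal, ← hz, ← coe_gal]
      refine h3.trans ?_
      show ((x * n (W x) : FF (M * p)) : LaurentSeries Qbar) ^ c * (g : LaurentSeries Qbar) ^ p = _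
      rfl
    obtain ⟨g', hg'⟩ := hInj p hp M hpM (gal M s y * (y ^ c)⁻¹) g (by
      show _ = ((gal M s y : FF M) : LaurentSeries Qbar) * ((y : LaurentSeries Qbar) ^ c)⁻¹
      rw [hser, mul_right_comm, mul_inv_cancel₀ hyc', one_mul])
    refine ⟨g', ?_⟩
    rw [hg', mul_left_comm, mul_inv_cancel₀ hyc, mul_one]
  obtain ⟨h, hh⟩ := hD p hp hp2 A hA M hpM ζ hζ y hyd h1 h2
  refine ⟨⟨(h : LaurentSeries Qbar), INJ.Inst.Descent.bar_le (dvd_mul_right M p) h.2⟩, ?_⟩
  apply Subtype.ext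
  rw [hz, hh]
  rfl

end Fermat.Agent.ORD.NM

end
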