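import Fermat.Agent.ORD.NM.Interface
import Fermat.Agent.INJ.Inst.DescentDeg

/-!
# ORD / NM / NM-INJ : `[F_{Mp} : F_M] = p + 1` and injectivity of `F_M^× / p → F_{Mp}^× / p`
-/

set_option autoImplicit false
set_option synthInstance.maxHeartbeats 400000

noncomputable section

namespace Fermat.Agent.ORD.NM

open ModularCurve IntermediateField
open Fermat.Agent.S24 (Qbar FF)
open Fermat.Agent.INJ.Inst.Descent

/-- `M ≠ 0` from `M * p ≠ 0`. -/
theorem InjCl_neZero (M p : ℕ) [h : NeZero (M * p)] : NeZero M :=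
  ⟨fun h0 => h.out (by rw [h0, zero_mul])⟩

/-- `[F_{Mp} : F_M] = p + 1` for a prime `p ∤ M`. -/
theorem relfinrank_eq (p : ℕ) (hp : p.Prime) (M : ℕ) [NeZero (M * p)] (hpM : ¬ p ∣ M) :
    relfinrank (modularFunctionFieldBar M) (modularFunctionFieldBar (M * p)) = p + 1 := by
  have : NeZero M := InjCl_neZero M p
  have h := psi_mul_relfinrank (Dvd.intro p rfl : M ∣ M * p)
  apply Nat.eq_of_mul_eq_mul_left (psi_pos M)
  rw [h, mul_comm M p,
    Fermat.Agent.S20.dedekindPsi_prime_mul_of_not_dvd hp (NeZero.ne M) hpM, mul_comm]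

/-- (NM-INJ) -/
theorem stmt_InjCl : Stmt_InjCl := by
  intro p hp M _ hpM y g hg
  have : NeZero M := InjCl_neZero M p
  obtain ⟨g', hg'⟩ := exists_pow_eq_pow_relfinrank
    (bar_le (Dvd.intro p rfl : M ∣ M * p)) p y g hg
  rw [relfinrank_eq p hp M hpM] at hg'
  by_cases hy : y = 0
  · exact ⟨0, by rw [hy, zero_pow hp.ne_zero]⟩
  · refine ⟨g' / y, ?_⟩
    rw [div_pow, hg', pow_succ]
    field_simp

end Fermat.Agent.ORD.NM
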