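import Fermat.Agent.ORD.NM.Interface
import Fermat.Agent.BR.Inst.ALProps
import Fermat.Agent.ES.Mid.HF1
import Fermat.Agent.INJ.Inst.DescentDeg

/-!
# ORD / NM / NORM : `u * N_p (W u)` is the norm of `u` from `F_{Mp}` to `F_M`
-/

set_option autoImplicit false
set_option synthInstance.maxHeartbeats 400000
set_option linter.style.haveILetI false

noncomputable section

namespace Fermat.Agent.ORD.NM

open ModularCurve IntermediateField
open Fermat.Agent.S24 (Qbar FF)
open Fermat.Agent.ES.Mid (GQ gal IsDiv formalN twProd compress tw CongOne)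
open Fermat.Agent.INJ.Inst (kA)
open Fermat.Agent.ORD.Dep

/-- Abstract form: enough pairwise distinct embeddings into a field compute the norm. -/
theorem NORM_abs {K₀ L Ω : Type*} [Field K₀] [Field L] [Field Ω] [Algebra K₀ L]
    [FiniteDimensional K₀ L] [Algebra.IsSeparable K₀ L] {I : Type*} [Fintype I]
    (ι : K₀ →+* Ω) (φ : I → L →+* Ω) (hι : ∀ i x, φ i (algebraMap K₀ L x) = ι x)
    (hφ : Function.Injective φ) (hcard : Module.finrank K₀ L ≤ Fintype.card I) (x : L) :
    ι (Algebra.norm K₀ x) = ∏ i, φ i x := by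
  classical
  letI : Algebra K₀ Ω := ι.toAlgebra
  let E := AlgebraicClosure Ω
  let φ' : I → (L →ₐ[K₀] Ω) := fun i => { φ i with commutes' := fun x => hι i x }
  let ψ : I → (L →ₐ[K₀] E) := fun i => (IsScalarTower.toAlgHom K₀ Ω E).comp (φ' i)
  have hψ : Function.Injective ψ := by
    intro i j hij
    apply hφ
    ext y
    have := DFunLike.congr_fun hij y
    exact (algebraMap Ω E).injective this
  have hc : Fintype.card (L →ₐ[K₀] E) = Module.finrank K₀ L := AlgHom.card K₀ L E
  have hcard' : Fintype.card I = Fintype.card (L →ₐ[K₀] E) :=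
    le_antisymm (Fintype.card_le_of_injective ψ hψ) (hc ▸ hcard)
  have hbij : Function.Bijective ψ := by
    rw [Fintype.bijective_iff_injective_and_card]
    exact ⟨hψ, hcard'⟩
  have h1 := Algebra.norm_eq_prod_embeddings K₀ E x
  apply (algebraMap Ω E).injective
  have h2 : algebraMap Ω E (ι (Algebra.norm K₀ x)) = algebraMap K₀ E (Algebra.norm K₀ x) :=
    (IsScalarTower.algebraMap_apply K₀ Ω E _).symm
  rw [h2, h1, map_prod]
  exact (Fintype.prod_bijective ψ hbij _ _ (fun i => rfl)).symm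

/-- `x(q) ↦ x(ζ q)` as a ring homomorphism. -/
def NORM_twHom (ζ : Qbarˣ) : LaurentSeries Qbar →+* LaurentSeries Qbar where
  toFun := tw ζ
  map_one' := ES.Mid.HF1.tw_one_right ζ
  map_mul' := ES.Mid.HF1.tw_mul ζ
  map_zero' := by ext n; simp
  map_add' x y := by ext n; simp [mul_add]

theorem NORM_twHom_apply (ζ : Qbarˣ) (x : LaurentSeries Qbar) : NORM_twHom ζ x = tw ζ x := rfl

theorem NORM_tw_qExpand {p : ℕ} [NeZero p] {ζ : Qbarˣ} (hζ : ζ ^ p = 1) (x : LaurentSeries Qbar) :
    tw ζ (qExpand Qbar p x) = qExpand Qbar p x := by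
  ext n
  rw [ES.Mid.tw_coeff]
  by_cases hn : (p : ℤ) ∣ n
  · obtain ⟨t, rfl⟩ := hn
    rw [zpow_mul, zpow_natCast, hζ, one_zpow, Units.val_one, one_mul]
  · rw [qExpand_coeff_of_not_dvd p _ hn, mul_zero]

theorem NORM_relfinrank {p : ℕ} (hp : p.Prime) (M : ℕ) [NeZero M] [NeZero (M * p)]
    (hpM : ¬ p ∣ M) :
    relfinrank (modularFunctionFieldBar M) (modularFunctionFieldBar (M * p)) = p + 1 := by
  have h := INJ.Inst.Descent.psi_mul_relfinrank (Nat.dvd_mul_right M p)
  apply Nat.eq_of_mul_eq_mul_left (INJ.Inst.Descent.psi_pos M)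
  rw [h, mul_comm M p, S20.dedekindPsi_prime_mul_of_not_dvd hp (NeZero.ne M) hpM, mul_comm]

/-- the identity `extendScalars h → F`. -/
def NORM_toF {E F : IntermediateField Qbar (LaurentSeries Qbar)} (h : E ≤ F) :
    extendScalars h →+* F where
  toFun x := ⟨x.1, x.2⟩
  map_one' := rfl
  map_mul' _ _ := rfl
  map_zero' := rfl
  map_add' _ _ := rfl

theorem NORM_coe_toF {E F : IntermediateField Qbar (LaurentSeries Qbar)} (h : E ≤ F)
    (x : extendScalars h) : ((NORM_toF h x : F) : LaurentSeries Qbar) = x.1 := rfl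

/-- the abstract core: `E ≤ F` of degree `p + 1`, `W` an endomorphism of `F` which is `q ↦ q ^ p`
on `E`, and an element `t` separating the embeddings. -/
theorem NORM_core {p : ℕ} [NeZero p] {E F : IntermediateField Qbar (LaurentSeries Qbar)}
    (hle : E ≤ F) (hfr : relfinrank E F = p + 1) (W : F →+* F)
    (hW : ∀ x : F, (x : LaurentSeries Qbar) ∈ E →
      ((W x : F) : LaurentSeries Qbar) = qExpand Qbar p (x : LaurentSeries Qbar))
    (ζ : Qbarˣ) (hζ : IsPrimitiveRoot ζ p) (t : F)
    (ht : (qExpand Qbar p (t : LaurentSeries Qbar)).coeff (-1) = 0)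
    (hWt : ((W t : F) : LaurentSeries Qbar).coeff (-1) = 1) (u : F) :
    ∃ y : E, (y : LaurentSeries Qbar) =
      (u : LaurentSeries Qbar) * formalU p ζ ((W u : F) : LaurentSeries Qbar) := by
  have hfr' : Module.finrank E (extendScalars hle) = p + 1 := by
    rw [← relfinrank_eq_finrank_of_le hle, hfr]
  haveI : FiniteDimensional E (extendScalars hle) :=
    Module.finite_of_finrank_pos (by rw [hfr']; exact Nat.succ_pos p)
  have hζp : ∀ j : ℕ, (ζ ^ j) ^ p = 1 := fun j => by
    rw [← pow_mul, mul_comm, pow_mul, hζ.pow_eq_one, one_pow]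
  -- the embeddings
  let ι : E →+* LaurentSeries Qbar := (qExpand Qbar p).comp E.val.toRingHom
  let φ : Option (Fin p) → extendScalars hle →+* LaurentSeries Qbar := fun o =>
    match o with
    | none => (qExpand Qbar p).comp (extendScalars hle).val.toRingHom
    | some j => (NORM_twHom (ζ ^ (j : ℕ))).comp (F.val.toRingHom.comp (W.comp (NORM_toF hle)))
  have hφn : ∀ x : extendScalars hle, φ none x = qExpand Qbar p (x : LaurentSeries Qbar) :=
    fun x => rfl
  have hφs : ∀ (j : Fin p) (x : extendScalars hle), φ (some j) x =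
      tw (ζ ^ (j : ℕ)) ((W (NORM_toF hle x) : F) : LaurentSeries Qbar) := fun j x => rfl
  have hι : ∀ i x, φ i (algebraMap E (extendScalars hle) x) = ι x := by
    intro i x
    cases i with
    | none => rfl
    | some j =>
      rw [hφs, hW _ x.2, NORM_tw_qExpand (hζp j)]
      rfl
  -- they are pairwise distinct
  let t₁ : extendScalars hle := ⟨(t : LaurentSeries Qbar), t.2⟩
  have ht₁ : NORM_toF hle t₁ = t := rfl
  have hev_none : (φ none t₁).coeff (-1) = 0 := by
    rw [hφn]; exact ht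
  have hev_some : ∀ j : Fin p, (φ (some j) t₁).coeff (-1) = (((ζ ^ (j : ℕ))⁻¹ : Qbarˣ) : Qbar) := by
    intro j
    rw [hφs, ht₁, ES.Mid.tw_coeff, hWt, mul_one, zpow_neg_one]
  have hφ : Function.Injective φ := by
    intro i j hij
    have hc : (φ i t₁).coeff (-1) = (φ j t₁).coeff (-1) := by rw [hij]
    cases i with
    | none =>
      cases j with
      | none => rfl
      | some j =>
        rw [hev_none, hev_some] at hc
        exact absurd hc.symm (Units.ne_zero _)
    | some i =>
      cases j with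
      | none =>
        rw [hev_none, hev_some] at hc
        exact absurd hc (Units.ne_zero _)
      | some j =>
        rw [hev_some, hev_some] at hc
        have h1 : ζ ^ (i : ℕ) = ζ ^ (j : ℕ) := inv_injective (Units.ext hc)
        exact congrArg some (Fin.ext (hζ.pow_inj i.2 j.2 h1))
  have hcard : Module.finrank E (extendScalars hle) ≤ Fintype.card (Option (Fin p)) := by
    rw [hfr', Fintype.card_option, Fintype.card_fin]
  -- the norm
  let u₁ : extendScalars hle := ⟨(u : LaurentSeries Qbar), u.2⟩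
  have hu₁ : NORM_toF hle u₁ = u := rfl
  have key := NORM_abs ι φ hι hφ hcard u₁
  refine ⟨Algebra.norm E u₁, ?_⟩
  apply qExpand_injective (R := Qbar) p
  have hprod : ∏ j : Fin p, φ (some j) u₁ = twProd p ζ ((W u : F) : LaurentSeries Qbar) := by
    unfold twProd
    rw [← Fin.prod_univ_eq_prod_range]
    exact Finset.prod_congr rfl fun j _ => by rw [hφs, hu₁]
  rw [Fintype.prod_option, hprod, hφn] at key
  rw [map_mul, formalU, ES.Mid.HF1.hf_expand Qbar p ζ hζ]
  exact key

/-- (NM-NORM). -/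
theorem stmt_Norm : Stmt_Norm := by
  intro p _ hp M _ hpM W hAL ζ hζ u
  have hMp : M * p ≠ 0 := NeZero.ne _
  have hM : M ≠ 0 := fun h => hMp (by rw [h, zero_mul])
  haveI : NeZero M := ⟨hM⟩
  have hle : modularFunctionFieldBar M ≤ modularFunctionFieldBar (M * p) :=
    INJ.Inst.Descent.bar_le (Nat.dvd_mul_right M p)
  obtain ⟨t, ht⟩ : ∃ t : FF (M * p), (t : LaurentSeries Qbar) = S28.jd Qbar p :=
    ⟨⟨S28.jd Qbar p, INJ.Inst.jd_mem_bar hMp (Nat.dvd_mul_left p M)⟩, rfl⟩
  obtain ⟨t', ht'⟩ : ∃ t' : FF (M * p), (t' : LaurentSeries Qbar) = S28.jd Qbar 1 :=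
    ⟨⟨S28.jd Qbar 1, INJ.Inst.jd_mem_bar hMp (one_dvd _)⟩, rfl⟩
  have hWt : W t = t' := by
    refine hAL 1 p (one_dvd M) dvd_rfl _ _ ?_ ?_
    · rw [one_mul, ht]
    · rw [one_mul, Nat.div_self hp.pos, ht']
  refine NORM_core hle (NORM_relfinrank hp M hpM) (W : FF (M * p) →+* FF (M * p)) ?_ ζ hζ t ?_ ?_ u
  · intro x hx
    obtain ⟨y, hy⟩ : ∃ y : FF (M * p), (y : LaurentSeries Qbar)
        = S28.Vq Qbar p (x : LaurentSeries Qbar) :=
      ⟨⟨_, (BR.Inst.stmt_Levels M p _ hx).2⟩, rfl⟩
    have h1 : W x = y := (BR.Inst.stmt_ALProps M p W hAL).2.2 x y hx hy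
    rw [RingHom.coe_coe, h1, hy, S28.Vq_eq]
  · apply qExpand_coeff_of_not_dvd
    intro h
    have h1 : (p : ℤ) ∣ 1 := by simpa using h
    have h2 : p ∣ 1 := by exact_mod_cast h1
    exact hp.one_lt.ne' (Nat.dvd_one.1 h2)
  · rw [RingHom.coe_coe, hWt, ht']
    have := INJ.Inst.coeff_jd Qbar (N := 1) one_ne_zero
    simpa using this

end Fermat.Agent.ORD.NM

end
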