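import Fermat.Agent.ORD.NM.Interface
import Fermat.Agent.ORD.Dep.GOApi
import Fermat.Agent.ORD.Dep.C
import Fermat.Agent.BR.F.Cong
import Fermat.Agent.ES.Mid.Glue

/-!
# ORD / NM : `Stmt_Old` (task NM-OLD)

The class `x * n (W x)` (`x, W x ∈ W_∞`) comes from a class `y` of level `M` lying in
`U_p(M) ∩ W_∞(M)`.
-/

set_option autoImplicit false

noncomputable section

namespace Fermat.Agent.ORD.NM

open ModularCurve
open Fermat.Agent.S24 (Qbar FF)
open Fermat.Agent.ES.Mid (GQ gal IsDiv formalN twProd compress tw CongOne)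
open Fermat.Agent.INJ.Inst (kA)
open Fermat.Agent.ORD.Dep

namespace Old

variable {A : ValuationSubring Qbar}

theorem field_id {K : Type*} [Field K] (x g a : K) (ha : a ≠ 0) (p : ℕ) :
    x * g ^ p = (x * a ^ p) * (g * a⁻¹) ^ p := by
  rw [mul_pow g, inv_pow, mul_assoc, mul_left_comm (a ^ p), mul_inv_cancel₀ (pow_ne_zero p ha),
    mul_one]

theorem GO_of_rd_one {x : LaurentSeries Qbar} (h : rd A x = 1) : GO A x :=
  GO_of_rd_ne_zero (by rw [h]; exact one_ne_zero)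

theorem rd_one_mul {x y : LaurentSeries Qbar} (hx : rd A x = 1) (hy : rd A y = 1) :
    rd A (x * y) = 1 := by
  rw [rd_mul (GO_of_rd_one hx) (GO_of_rd_one hy), hx, hy, one_mul]

theorem rd_one_pow {x : LaurentSeries Qbar} (hx : rd A x = 1) (n : ℕ) : rd A (x ^ n) = 1 := by
  rw [rd_pow (GO_of_rd_one hx), hx, one_pow]

theorem rd_one_of_Cg {d : Qbar} (hd : d ∈ A.nonunits) {x : LaurentSeries Qbar}
    (h : Cg A d x 1) : rd A x = 1 := by
  rw [h.rd_eq hd GO_one, rd_one]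

/-- `U_p` preserves `rd = 1` on elements of `F_N`. -/
theorem rd_one_U (hF : Stmt_UForm) (p : ℕ) [NeZero p] (hp : p.Prime) (hA : A.LiesOverPrime p)
    (ζ : Qbarˣ) (hζ : IsPrimitiveRoot ζ p) (N : ℕ) [NeZero N] (u : FF N)
    (hu : rd A (u : LaurentSeries Qbar) = 1) :
    rd A (formalU p ζ (u : LaurentSeries Qbar)) = 1 := by
  by_cases h1 : u = 1
  · subst h1
    have e : ((1 : FF N) : LaurentSeries Qbar) = 1 := rfl
    rw [e, (hF p ζ hζ).1, rd_one]
  · have e : ((1 : FF N) : LaurentSeries Qbar) = 1 := rfl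
    obtain ⟨c, hc, z, hz, hcg⟩ := Cg_of_rd_eq (A := A) N h1 (GO_of_rd_one hu)
      (by rw [e]; exact GO_one) (by rw [e, hu, rd_one])
    rw [e] at hcg
    obtain ⟨z₁, z₂, hz₁, hz₂, hU⟩ := stmt_C2 p hp A hA ζ hζ c hc z hz
    rw [hcg, hU]
    have hcc : c * c ∈ A.nonunits := by
      have := A.nonunits.mul_mem hc.2 hc.2
      exact this
    have hpc : (p : Qbar) * c ∈ A.nonunits := by
      have := A.nonunits.mul_mem hA hc.2
      exact this
    have g1 : GO A (cst (c * c) * z₁) := (GO_cst (A.nonunits_subset hcc)).mul hz₁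
    have g2 : GO A (cst ((p : Qbar) * c) * z₂) := (GO_cst (A.nonunits_subset hpc)).mul hz₂
    rw [rd_add (GO_one.add g1) g2, rd_add GO_one g1, rd_mul (GO_cst (A.nonunits_subset hcc)) hz₁,
      rd_mul (GO_cst (A.nonunits_subset hpc)) hz₂, rd_cst_of_nonunits hcc,
      rd_cst_of_nonunits hpc, rd_one, zero_mul, zero_mul, add_zero, add_zero]

end Old

open Old in
theorem stmt_Old (hN : Stmt_Norm) (hDD : Stmt_DivDesc) (hWA : Stmt_WA) (hUM : Stmt_UMem)
    (hF : Stmt_UForm) : Stmt_Old := by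
  intro p _ hp A hA M _ _ hpM W hW ζ hζ x hx hx1 hx2
  obtain ⟨y, hy⟩ := hN p hp M hpM W hW ζ hζ x
  refine ⟨y, hy, ?_, ?_⟩
  · -- `IsDiv`
    obtain ⟨v, hv, -, hvd⟩ := hUM (M * p) p hp (Dvd.intro_left M rfl) ζ hζ (W x)
    have hWx : IsDiv (M * p) p (W x) := BR.F.C.al_div (M * p) p W x hx
    have hz : IsDiv (M * p) p (x * v) := ES.Mid.GLUE.isDiv_mul hx (hvd p hp.ne_zero hWx)
    refine hDD p hp M hpM y (x * v) ?_ hz
    have e : ((x * v : FF (M * p)) : LaurentSeries Qbar)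
        = (x : LaurentSeries Qbar) * (v : LaurentSeries Qbar) := rfl
    rw [e, hv, hy]
  · -- `InW`
    obtain ⟨c₁, g₁, hc₁, hg₁, h₁⟩ := hx1
    obtain ⟨c₂, g₂, hc₂, hg₂, h₂⟩ := hx2
    obtain ⟨γ₁, hγ₁⟩ := IsAlgClosed.exists_pow_nat_eq c₁ hp.pos
    obtain ⟨γ₂, hγ₂⟩ := IsAlgClosed.exists_pow_nat_eq c₂ hp.pos
    have hγ₁0 : γ₁ ≠ 0 := by
      rintro rfl
      rw [zero_pow hp.ne_zero] at hγ₁
      exact hc₁ hγ₁.symm
    have hγ₂0 : γ₂ ≠ 0 := by
      rintro rfl
      rw [zero_pow hp.ne_zero] at hγ₂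
      exact hc₂ hγ₂.symm
    set a : FF (M * p) := algebraMap Qbar (FF (M * p)) γ₁ * g₁ with ha
    set b' : FF (M * p) := algebraMap Qbar (FF (M * p)) γ₂ * g₂ with hb'
    set b : FF (M * p) := W.symm b' with hb
    have ha0 : a ≠ 0 := mul_ne_zero ((map_ne_zero _).2 hγ₁0) hg₁
    have hb'0 : b' ≠ 0 := mul_ne_zero ((map_ne_zero _).2 hγ₂0) hg₂
    have hb0 : b ≠ 0 := (map_ne_zero_iff _ W.symm.injective).2 hb'0
    have hWb : W b = b' := W.apply_symm_apply b'
    obtain ⟨g, hg0, hga, hgb⟩ := hWA p hp A hA M hpM W hW a b ha0 hb0 (p : Qbar)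
      (Nat.cast_ne_zero.2 hp.ne_zero)
    have ra : rd A ((g * a⁻¹ : FF (M * p)) : LaurentSeries Qbar) = 1 := rd_one_of_Cg hA hga
    have rb : rd A ((W (g * b⁻¹) : FF (M * p)) : LaurentSeries Qbar) = 1 := rd_one_of_Cg hA hgb
    -- `x' = x * g ^ p`
    have ex : x * g ^ p = (x * a ^ p) * (g * a⁻¹) ^ p := field_id x g a ha0 p
    have eWx : W (x * g ^ p) = (W x * b' ^ p) * (W (g * b⁻¹)) ^ p := by
      rw [map_mul, map_pow, map_mul, map_inv₀, hWb]
      exact field_id (W x) (W g) b' hb'0 p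
    have e1 : ((x * a ^ p : FF (M * p)) : LaurentSeries Qbar)
        = cst c₁ * (x : LaurentSeries Qbar) * (g₁ : LaurentSeries Qbar) ^ p := by
      have : x * a ^ p = algebraMap Qbar (FF (M * p)) c₁ * x * g₁ ^ p := by
        rw [ha, mul_pow, ← map_pow, hγ₁]; ring
      rw [this]; rfl
    have e2 : ((W x * b' ^ p : FF (M * p)) : LaurentSeries Qbar)
        = cst c₂ * ((W x : FF (M * p)) : LaurentSeries Qbar) * (g₂ : LaurentSeries Qbar) ^ p := by
      have : W x * b' ^ p = algebraMap Qbar (FF (M * p)) c₂ * W x * g₂ ^ p := by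
        rw [hb', mul_pow, ← map_pow, hγ₂]; ring
      rw [this]; rfl
    have r1 : rd A ((x * g ^ p : FF (M * p)) : LaurentSeries Qbar) = 1 := by
      rw [ex]
      have e : (((x * a ^ p) * (g * a⁻¹) ^ p : FF (M * p)) : LaurentSeries Qbar)
        = ((x * a ^ p : FF (M * p)) : LaurentSeries Qbar)
          * ((g * a⁻¹ : FF (M * p)) : LaurentSeries Qbar) ^ p := rfl
      rw [e]
      exact rd_one_mul (by rw [e1]; exact h₁) (rd_one_pow ra p)
    have r2 : rd A ((W (x * g ^ p) : FF (M * p)) : LaurentSeries Qbar) = 1 := by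
      rw [eWx]
      have e : (((W x * b' ^ p) * (W (g * b⁻¹)) ^ p : FF (M * p)) : LaurentSeries Qbar)
        = ((W x * b' ^ p : FF (M * p)) : LaurentSeries Qbar)
          * ((W (g * b⁻¹) : FF (M * p)) : LaurentSeries Qbar) ^ p := rfl
      rw [e]
      exact rd_one_mul (by rw [e2]; exact h₂) (rd_one_pow rb p)
    have r3 := rd_one_U hF p hp hA ζ hζ (M * p) (W (x * g ^ p)) r2
    -- the norm of `g`
    obtain ⟨yg, hyg⟩ := hN p hp M hpM W hW ζ hζ g
    obtain ⟨vg, hvg, hvg0, -⟩ := hUM (M * p) p hp (Dvd.intro_left M rfl) ζ hζ (W g)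
    have hvg0' : vg ≠ 0 := hvg0 ((map_ne_zero_iff _ W.injective).2 hg0)
    have hyg0 : yg ≠ 0 := by
      rintro rfl
      have e0 : ((0 : FF M) : LaurentSeries Qbar) = 0 := rfl
      rw [e0, ← hvg] at hyg
      rcases mul_eq_zero.1 hyg.symm with h | h
      · exact hg0 (Subtype.ext h)
      · exact hvg0' (Subtype.ext h)
    refine ⟨1, yg, one_ne_zero, hyg0, ?_⟩
    obtain ⟨-, hmul, -, -, -⟩ := hF p ζ hζ
    have hpow : ∀ (s : LaurentSeries Qbar) (n : ℕ), formalU p ζ (s ^ n) = formalU p ζ s ^ n := by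
      intro s n
      induction n with
      | zero => rw [pow_zero, pow_zero, (hF p ζ hζ).1]
      | succ n ih => rw [pow_succ, pow_succ, hmul, ih]
    have eW : ((W (x * g ^ p) : FF (M * p)) : LaurentSeries Qbar)
        = ((W x : FF (M * p)) : LaurentSeries Qbar) * ((W g : FF (M * p)) : LaurentSeries Qbar) ^ p := by
      rw [map_mul, map_pow]; rfl
    have exg : ((x * g ^ p : FF (M * p)) : LaurentSeries Qbar)
        = (x : LaurentSeries Qbar) * (g : LaurentSeries Qbar) ^ p := rfl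
    have key : cst 1 * (y : LaurentSeries Qbar) * (yg : LaurentSeries Qbar) ^ p
        = ((x * g ^ p : FF (M * p)) : LaurentSeries Qbar)
          * formalU p ζ ((W (x * g ^ p) : FF (M * p)) : LaurentSeries Qbar) := by
      have c1 : cst 1 = 1 := map_one _
      rw [eW, hmul, hpow, exg, hy, hyg, c1]
      ring
    rw [key]
    exact rd_one_mul r1 r3

end Fermat.Agent.ORD.NM

end
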