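import Fermat.Agent.ORD.NM.Interface
import Fermat.Agent.ORD.Dep.NMem
import Fermat.Agent.BR.Inst.ALProps

/-!
# ORD / NM : (NM-T) `T = W * n` on the image of level `M` is `formalN p`.   helper83
-/

set_option autoImplicit false

namespace Fermat.Agent.ORD.NM

open ModularCurve
open Fermat.Agent.S24 (Qbar FF)
open Fermat.Agent.ES.Mid (GQ gal IsDiv formalN twProd compress tw CongOne)
open Fermat.Agent.ORD.Dep

theorem stmt_TOld : Stmt_TOld := by
  intro p _ hp M _ _ hpM W hW ζ hζ n hn y z hzy J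
  induction J with
  | zero => exact ⟨y, rfl, hzy⟩
  | succ J ih =>
    obtain ⟨y', hy', hz'⟩ := ih
    obtain ⟨y'', hy'', -, -⟩ := stmt_NMem M p hp hpM ζ hζ y'
    refine ⟨y'', ?_, ?_⟩
    · rw [Function.iterate_succ_apply', ← hy', hy'']
    · rw [Function.iterate_succ_apply']
      obtain ⟨zJ, hzJ⟩ : ∃ zJ : FF (M * p), zJ = (fun z => W z * n z)^[J] z := ⟨_, rfl⟩
      rw [← hzJ] at hz' ⊢
      have hmem : (zJ : LaurentSeries Qbar) ∈ modularFunctionFieldBar M := by
        rw [hz']; exact y'.2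
      have hV := (BR.Inst.stmt_Levels M p (zJ : LaurentSeries Qbar) hmem).2
      have hW' : W zJ = ⟨S28.Vq Qbar p (zJ : LaurentSeries Qbar), hV⟩ :=
        (BR.Inst.stmt_ALProps M p W hW).2.2 zJ _ hmem rfl
      show ((W zJ : FF (M * p)) : LaurentSeries Qbar) * ((n zJ : FF (M * p)) : LaurentSeries Qbar)
        = (y'' : LaurentSeries Qbar)
      rw [hy'', hW', hn]
      show S28.Vq Qbar p (zJ : LaurentSeries Qbar) * formalU p ζ (zJ : LaurentSeries Qbar)
        = formalN p ζ (y' : LaurentSeries Qbar)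
      rw [hz', S28.Vq_eq]
      rfl

end Fermat.Agent.ORD.NM
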