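import Fermat.Agent.ORD.Dep.All
import Fermat.Agent.ORD.NM.Bridge
import Fermat.Agent.ORD.NM.DivDesc
import Fermat.Agent.ORD.NM.G1
import Fermat.Agent.ORD.NM.G2
import Fermat.Agent.ORD.NM.G3
import Fermat.Agent.ORD.NM.InjCl
import Fermat.Agent.ORD.NM.Norm
import Fermat.Agent.ORD.NM.Old
import Fermat.Agent.ORD.NM.TOld
import Fermat.Agent.ORD.NM.UMem
import Fermat.Agent.ORD.NM.WA

/-!
# ORD / NM : assembly.  `G2`, `G3` unconditionally, `G1` from `Stmt_D2FF` (helper79)
-/

set_option autoImplicit false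

namespace Fermat.Agent.ORD.NM

theorem all_Old : Stmt_Old := stmt_Old stmt_Norm stmt_DivDesc stmt_WA stmt_UMem stmt_UForm

/-- **G2**, unconditionally. -/
theorem all_G2 : Stmt_G2 := stmt_G2 all_Old stmt_TOld stmt_InjCl Dep.all_LemmaD'

/-- **G3**, unconditionally. -/
theorem all_G3 : Stmt_G3 := stmt_G3 all_Old stmt_TOld stmt_InjCl Dep.all_LemmaD

/-- **G1** from the second half of Lemma D''. -/
theorem G1_of (h : Stmt_D2FF) : Stmt_G1 := stmt_G1 h stmt_UForm

end Fermat.Agent.ORD.NM
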